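import Fermat.Agent.S56.EC.Units.Main
import Fermat.Agent.S56.EC.Alg.GL2
import Fermat.Agent.S56.EC.Alg.OrbitSum
import Fermat.Agent.CFT.W.EulerNice
import Fermat.Agent.CFT.W.Euler
import Fermat.Agent.CFT.Global.TG6.Main
import Fermat.Prelude.Def_GaloisRep_ComplexConjugation

/-!
# S56 / EC / Gal : the arithmetic setting.    `L ⊆ Qb` finite normal over `ℚ`, `Γ = Gal(L/ℚ) = (↥L ≃ₐ[ℚ] ↥L)`, `piL L : GQ →* Γ`.

* `chiL` : the mod `p` cyclotomic character of `Γ` (if `μ_p ⊆ L`);
* `ecFun` : the additive function `σ ↦ χ(G_S, σ ∘ π) + dim V - dim V^c` on `𝔽_p[Γ]`-modules, `c = complexConjugation` (Prelude).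
WP EC-G0 : the `sorry`s of this file.
-/

set_option autoImplicit false

open ExtCitation Module

namespace Fermat.Agent.S56.EC

open Fermat.Agent.CFT Fermat.Agent.CFT.Global Fermat.Agent.S14

variable (L : IntermediateField ℚ Qb) [FiniteDimensional ℚ L] [Normal ℚ L]

/-- restriction to `L` -/
noncomputable def piL : GQ →* (↥L ≃ₐ[ℚ] ↥L) := AlgEquiv.restrictNormalHom ↥L

lemma piL_apply (g : GQ) (x : ↥L) : ((piL L g x : ↥L) : Qb) = g (x : Qb) :=
  AlgEquiv.restrictNormal_commutes g ↥L x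

lemma piL_surjective : Function.Surjective (piL L) :=
  AlgEquiv.restrictNormalHom_surjective Qb

lemma piL_eq_one_iff (g : GQ) : piL L g = 1 ↔ g ∈ L.fixingSubgroup := by
  rw [IntermediateField.mem_fixingSubgroup_iff]
  constructor
  · intro h x hx
    have := piL_apply L g ⟨x, hx⟩
    rw [h] at this
    exact this.symm
  · intro h
    ext x
    rw [piL_apply]
    exact h x.1 x.2

instance : Finite (↥L ≃ₐ[ℚ] ↥L) := by
  infer_instance

variable {p : ℕ} [Fact p.Prime]

theorem exists_chiL (hmu : ∀ s ∈ L.fixingSubgroup, cycloChar p s = 1) :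
    ∃ χ : (↥L ≃ₐ[ℚ] ↥L) →* (ZMod p)ˣ, ∀ g, χ (piL L g) = cycloChar p g := by
  refine ⟨(piL L).liftOfSurjective (piL_surjective L) ⟨cycloChar p, fun g hg => ?_⟩, fun g => ?_⟩
  · rw [MonoidHom.mem_ker] at hg ⊢
    exact hmu g ((piL_eq_one_iff L g).1 hg)
  · exact MonoidHom.liftOfRightInverse_comp_apply _ _ _ _ g

/-- the cyclotomic character of `Gal(L/ℚ)` -/
noncomputable def chiL (hmu : ∀ s ∈ L.fixingSubgroup, cycloChar p s = 1) :
    (↥L ≃ₐ[ℚ] ↥L) →* (ZMod p)ˣ := Classical.choose (exists_chiL L hmu)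

lemma chiL_piL (hmu : ∀ s ∈ L.fixingSubgroup, cycloChar p s = 1) (g : GQ) :
    chiL L hmu (piL L g) = cycloChar p g := Classical.choose_spec (exists_chiL L hmu) g

lemma chiL_spec (hmu : ∀ s ∈ L.fixingSubgroup, cycloChar p s = 1) {ζ : ↥L}
    (hζ : IsPrimitiveRoot ζ p) (g : ↥L ≃ₐ[ℚ] ↥L) :
    g ζ = ζ ^ ((chiL L hmu g : (ZMod p)ˣ) : ZMod p).val := by
  obtain ⟨g', rfl⟩ := piL_surjective L g
  apply Subtype.ext
  have h1 : ((ζ : ↥L) : Qb) ^ p = 1 := by
    have := congrArg (fun x : ↥L => (x : Qb)) hζ.pow_eq_one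
    simpa using this
  have h2 := GAL.cycloChar_spec p g' h1
  rw [piL_apply, chiL_piL, h2]
  rfl

/-- twisted duals commute with inflation -/
lemma dualTwist_comp_piL (hmu : ∀ s ∈ L.fixingSubgroup, cycloChar p s = 1) {V : Type}
    [AddCommGroup V] [Module (ZMod p) V] (σ : Representation (ZMod p) (↥L ≃ₐ[ℚ] ↥L) V) :
    (resRep (piL L) σ).dual.twist (cycloChar p) = resRep (piL L) (σ.dual.twist (chiL L hmu)) := by
  ext g f v
  show (((resRep (piL L) σ).dual.twist (cycloChar p)) g f) v =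
    ((σ.dual.twist (chiL L hmu)) (piL L g) f) v
  rw [Representation.twist_apply_apply, Representation.twist_apply_apply, chiL_piL,
    LinearMap.smul_apply, LinearMap.smul_apply, Representation.dual_apply, Representation.dual_apply]
  show _ • f (σ (piL L g⁻¹) v) = _ • f (σ (piL L g)⁻¹ v)
  rw [map_inv]

variable {S : Finset Nat.Primes}

/-- inflated representations are smooth -/
lemma isSmooth_comp_piL (hL : L.IsUnramifiedOutside S) {V : Type} [AddCommGroup V]
    [Module (ZMod p) V] (σ : Representation (ZMod p) (↥L ≃ₐ[ℚ] ↥L) V) :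
    IsSmooth (levS S) (resRep (piL L) σ) := by
  obtain ⟨U, hU, hle⟩ := exists_levS_le hL
  intro v
  refine ⟨U, hU, fun s hs => ?_⟩
  show σ (piL L s) v = v
  rw [(piL_eq_one_iff L s).2 (hle hs), map_one]
  rfl

lemma sigmaPl_mem_SPl (g : ↥L ≃ₐ[ℚ] ↥L) (v : Pl ↥L) (hv : v ∈ SPl S L) :
    sigmaPl g v ∈ SPl S L := by
  rw [mem_SPl] at hv ⊢
  obtain ⟨q, hq, hv⟩ := hv
  refine ⟨q, hq, ?_⟩
  show (((q : ℕ) : NumberField.RingOfIntegers ↥L)) ∈ (sigmaPl g v).asIdeal
  have h1 : (sigmaPl g v).asIdeal =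
      v.asIdeal.comap ((NumberField.RingOfIntegers.mapRingEquiv (g : ↥L ≃+* ↥L)).symm : NumberField.RingOfIntegers ↥L →+* NumberField.RingOfIntegers ↥L) := rfl
  rw [h1, Ideal.mem_comap, map_natCast]
  exact hv

/-- every representation of `GQ` which is trivial on `Gal(Qb/L)` is inflated from `Γ` -/
theorem exists_eq_comp_piL {V : Type} [AddCommGroup V] [Module (ZMod p) V]
    (ρ : Representation (ZMod p) GQ V) (hρ : ∀ g ∈ L.fixingSubgroup, ρ g = 1) :
    ∃ σ : Representation (ZMod p) (↥L ≃ₐ[ℚ] ↥L) V, ρ = resRep (piL L) σ := by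
  -- work with units to be able to use `liftOfSurjective`
  choose s hs using piL_surjective L
  have hker : ∀ g g' : GQ, piL L g = piL L g' → ρ g = ρ g' := by
    intro g g' h
    have h1 : g'⁻¹ * g ∈ L.fixingSubgroup := by
      rw [← piL_eq_one_iff, map_mul, map_inv, h, inv_mul_cancel]
    have h2 := hρ _ h1
    calc ρ g = ρ (g' * (g'⁻¹ * g)) := by rw [mul_inv_cancel_left]
      _ = ρ g' := by rw [map_mul, h2, mul_one]
  refine ⟨{ toFun := fun γ => ρ (s γ)
            map_one' := by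
              rw [← map_one ρ]
              exact hker _ _ (by rw [hs, map_one])
            map_mul' := fun γ γ' => by
              rw [← map_mul ρ]
              exact hker _ _ (by rw [hs, map_mul, hs, hs]) }, ?_⟩
  ext g : 1
  exact hker _ _ (hs _).symm

/-- **the additive function of the Euler characteristic formula**
(`iso`: `IsoRep.H1`, `IsoRep.H2'`, `IsoRep.invariants'`; `add`: `eulerChar_additive`, `exists_wctx_DS`, `finrank_ker_invol_ses`,
`complexConjugation_mul_self`, rank-nullity). -/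
noncomputable def ecFun (hp2 : p ≠ 2) (hpS : pPrime p ∈ S) (hL : L.IsUnramifiedOutside S) :
    AddFun (ZMod p) (↥L ≃ₐ[ℚ] ↥L) where
  toFun V _ _ σ := (DS S).eulerChar (resRep (piL L) σ) + (finrank (ZMod p) V : ℤ) -
    (finrank (ZMod p) ↥(LinearMap.ker (σ (piL L complexConjugation) - 1)) : ℤ)
  iso := by
    intro V W _ _ _ _ _ ρ σ h
    obtain ⟨e1⟩ := IsoRep.invariants' (isoRep_comp (piL L) h)
    obtain ⟨e2⟩ := IsoRep.H1 (D := DS S) (isoRep_comp (piL L) h)
    obtain ⟨e3⟩ := IsoRep.H2' (levS S) (isoRep_comp (piL L) h)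
    obtain ⟨e, he⟩ := h
    have h4 : finrank (ZMod p) ↥(LinearMap.ker (ρ (piL L complexConjugation) - 1)) =
        finrank (ZMod p) ↥(LinearMap.ker (σ (piL L complexConjugation) - 1)) := by
      refine LinearEquiv.finrank_eq (e.submoduleMap _ |>.trans (LinearEquiv.ofEq _ _ ?_))
      ext w
      rw [Submodule.mem_map, LinearMap.mem_ker]
      constructor
      · rintro ⟨v, hv, rfl⟩
        rw [LinearMap.mem_ker, LinearMap.sub_apply, Module.End.one_apply, sub_eq_zero] at hv
        rw [LinearMap.sub_apply, Module.End.one_apply, sub_eq_zero]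
        show σ _ (e v) = e v
        rw [← he, hv]
      · intro hw
        rw [LinearMap.sub_apply, Module.End.one_apply, sub_eq_zero] at hw
        refine ⟨e.symm w, ?_, e.apply_symm_apply w⟩
        rw [LinearMap.mem_ker, LinearMap.sub_apply, Module.End.one_apply, sub_eq_zero]
        apply e.injective
        rw [he, e.apply_symm_apply, hw]
    unfold Datum.eulerChar
    rw [e1.finrank_eq, e2.finrank_eq, e3.finrank_eq, e.finrank_eq, h4]
  add := by
    intro N I Q _ _ _ _ _ _ _ ρN ρI ρQ i π h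
    obtain ⟨lam, Φ, w⟩ := exists_wctx_DS hp2 S hpS
    have hN : Module.Finite (ZMod p) N := Module.Finite.of_injective i h.inj
    have hQ : Module.Finite (ZMod p) Q := Module.Finite.of_surjective π h.surj
    have h1 := eulerChar_additive w (isSES_comp (piL L) h) (isSmooth_comp_piL L hL ρN)
      (isSmooth_comp_piL L hL ρI) (isSmooth_comp_piL L hL ρQ)
    have h2 : (2 : ZMod p) ≠ 0 := by
      intro h0
      have h' : ((2 : ℕ) : ZMod p) = 0 := by exact_mod_cast h0
      rw [ZMod.natCast_eq_zero_iff] at h'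
      exact hp2 ((Nat.prime_dvd_prime_iff_eq Fact.out Nat.prime_two).mp h')
    have h3 := finrank_ker_invol_ses h2 h (piL L complexConjugation)
      (by rw [← map_mul, complexConjugation_mul_self, map_one])
    have h4 : finrank (ZMod p) I = finrank (ZMod p) N + finrank (ZMod p) Q := by
      have e1 := LinearMap.finrank_range_add_finrank_ker π
      rw [LinearMap.range_eq_top.2 h.surj, finrank_top] at e1
      have e2 : LinearMap.ker π = LinearMap.range i := by
        ext x
        rw [LinearMap.mem_ker, h.exact x, LinearMap.mem_range]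
      rw [e2, LinearMap.finrank_range_of_inj h.inj] at e1
      omega
    have h1' : (DS S).eulerChar (resRep (piL L) ρI) =
        (DS S).eulerChar (resRep (piL L) ρN) + (DS S).eulerChar (resRep (piL L) ρQ) := h1
    rw [h1', h3, h4]
    push_cast
    ring

lemma ecFun_ev (hp2 : p ≠ 2) (hpS : pPrime p ∈ S) (hL : L.IsUnramifiedOutside S) {V : Type}
    [AddCommGroup V] [Module (ZMod p) V] (σ : Representation (ZMod p) (↥L ≃ₐ[ℚ] ↥L) V) :
    (ecFun L hp2 hpS hL).ev σ = (DS S).eulerChar (resRep (piL L) σ) + (finrank (ZMod p) V : ℤ) -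
      (finrank (ZMod p) ↥(LinearMap.ker (σ (piL L complexConjugation) - 1)) : ℤ) := rfl

end Fermat.Agent.S56.EC
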