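import Fermat.Agent.S56.EC.Gal.Defs

/-!
# S56 / EC / Gal : proof file of WP EC-K4 (equivariant Kummer theory).

`exists_kummer_equiv` : a linear isomorphism `e : Z^1(G_{L,S}, 𝔽_p) ≃ B_S(L)` such that
`e (u ↦ χ(g) f(g⁻¹ u g)) = g (e f)` for all `g : GQ`.
-/

set_option autoImplicit false

open ExtCitation Module

namespace Fermat.Agent.S56.EC

open Fermat.Agent.CFT Fermat.Agent.CFT.Global Fermat.Agent.S14 Fermat.Agent.Bridge
  Fermat.Agent.CFT.Br

variable (L : IntermediateField ℚ Qb) [FiniteDimensional ℚ L] [Normal ℚ L]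
  {p : ℕ} [Fact p.Prime] {S : Finset Nat.Primes}

/-- transport of the Kummer relation by `g : GQ`. -/
theorem KRel_conj {ζ' : Qbˣ} (hζ : IsPrimitiveRoot ζ' p) (g : GQ)
    {f f' : ↥(fixer (emb L)) → ZMod p} {a : ModP p ↥L}
    (hN : ∀ u : ↥(fixer (emb L)), g⁻¹ * u * g ∈ fixer (emb L))
    (hf' : ∀ u, f' u = ((cycloChar p g : (ZMod p)ˣ) : ZMod p) * f ⟨g⁻¹ * u * g, hN u⟩)
    (h : KRel (emb L) ζ' f a) : KRel (emb L) ζ' f' (modPRep ↥L p (piL L g) a) := by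
  obtain ⟨b, x, hx0, hx, rfl, hf⟩ := h
  refine ⟨Units.map ((g : Qb ≃ₐ[ℚ] Qb) : Qb →* Qb) b, piL L g x, by simpa using hx0, ?_,
    (modPRep_cls p _ x).symm, fun u => ?_⟩
  · have h1 : emb L (piL L g x) = g (emb L x) := piL_apply L g x
    rw [h1, hx, map_pow]
    rfl
  · unfold muEmb
    refine congrArg Additive.ofMul (Units.ext ?_)
    have h1 := hf ⟨g⁻¹ * u * g, hN u⟩
    unfold muEmb at h1
    have h2 := congrArg (fun t : Qbˣ => g (t : Qb)) (Additive.ofMul.injective h1)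
    simp only [Units.val_pow_eq_pow_val, Units.val_div_eq_div_val, map_pow, map_div₀] at h2
    have h3 : g (ζ' : Qb) = (ζ' : Qb) ^ ((cycloChar p g : (ZMod p)ˣ) : ZMod p).val := by
      have : (ζ' : Qb) ^ p = 1 := by
        rw [← Units.val_pow_eq_pow_val, hζ.pow_eq_one, Units.val_one]
      exact Fermat.Agent.GAL.cycloChar_spec p g this
    have h4 : g ((uAct ↥(fixer (emb L)) Qb ⟨g⁻¹ * u * g, hN u⟩ b : Qbˣ) : Qb) =
        (u : GQ) (g (b : Qb)) := by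
      change g ((g⁻¹ * (u : GQ) * g) (b : Qb)) = _
      rw [AlgEquiv.mul_apply, AlgEquiv.mul_apply, ← AlgEquiv.mul_apply, mul_inv_cancel]
      rfl
    rw [h3, h4, ← pow_mul] at h2
    rw [Units.val_pow_eq_pow_val, Units.val_div_eq_div_val, hf' u, ZMod.val_mul]
    have h5 : (ζ' : Qb) ^ p = 1 := by
      rw [← Units.val_pow_eq_pow_val, hζ.pow_eq_one, Units.val_one]
    rw [← pow_eq_pow_mod _ h5, h2]
    rfl

/-- the abstract form (`W = fixer (emb L)`). -/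
theorem kummer_equiv_aux (hpS : pPrime p ∈ S) (hL : L.IsUnramifiedOutside S) {ζ : ↥L}
    (hζ : IsPrimitiveRoot ζ p) (W : Subgroup GQ) (hW : W = fixer (emb L))
    (hN : ∀ (g : GQ) (u : ↥W), g⁻¹ * u * g ∈ W) :
    ∃ e : ↥(Z1 ((levS S).comap W.subtype) (1 : Representation (ZMod p) ↥W (ZMod p))) ≃ₗ[ZMod p]
        ↥(BS p (aboveS ↥L S)),
      ∀ (g : GQ) (f f' : ↥(Z1 ((levS S).comap W.subtype)
          (1 : Representation (ZMod p) ↥W (ZMod p)))),
        (∀ u : ↥W, f'.1 u = ((cycloChar p g : (ZMod p)ˣ) : ZMod p) * f.1 ⟨g⁻¹ * u * g, hN g u⟩) →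
        ((e f' : ↥(BS p (aboveS ↥L S))) : ModP p ↥L) = modPRep ↥L p (piL L g) (e f) := by
  subst hW
  have hur : (imageField (emb L)).IsUnramifiedOutside S := by
    rw [TG6A.imageField_emb]; exact hL
  have hζ0 : emb L ζ ≠ 0 := by
    have := hζ.ne_zero (Fact.out : p.Prime).ne_zero
    simpa using this
  have hζ' : IsPrimitiveRoot (Units.mk0 (emb L ζ) hζ0) p :=
    IsPrimitiveRoot.coe_units_iff.1 (hζ.map_of_injective (emb L).injective)
  have hfix : Units.mk0 (emb L ζ) hζ0 ∈ fixU ↥(fixer (emb L)) Qb := mem_fixU_iff.2 ⟨ζ, rfl⟩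
  obtain ⟨e, he⟩ := exists_addEquiv_of_rel
    (fun (f : ↥(Z1 ((levS S).comap (fixer (emb L)).subtype)
      (1 : Representation (ZMod p) ↥(fixer (emb L)) (ZMod p)))) (a : ↥(BS p (aboveS ↥L S))) =>
      KRel (emb L) (Units.mk0 (emb L ζ) hζ0) f.1 a.1)
    (fun _ _ _ _ h h' => KRel.add hζ' h h') (fun _ _ h => KRel.neg hζ' h)
    (fun f => by
      obtain ⟨a, ha, h⟩ := KRel.exists_right hur hζ' hfix f.2
      exact ⟨⟨a, ha⟩, h⟩)
    (fun a => by
      obtain ⟨f, hf, h⟩ := KRel.exists_left hur (TG6A.coprime_of_not_mem hpS) hζ' hfix a.2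
      exact ⟨⟨f, hf⟩, h⟩)
    (fun f h => Subtype.ext (KRel.left_eq_zero hζ' hfix h))
    (fun a h => Subtype.ext (KRel.right_eq_zero hζ' h))
  refine ⟨LinearEquiv.ofBijective (e.toAddMonoidHom.toZModLinearMap p) e.bijective,
    fun g f f' hff' => ?_⟩
  change ((e f' : ↥(BS p (aboveS ↥L S))) : ModP p ↥L) = modPRep ↥L p (piL L g) (e f)
  have h1 := KRel_conj L hζ' g (hN g) hff' (he f)
  have h2 := KRel.add hζ' (he f') (KRel.neg hζ' h1)
  rw [add_neg_cancel] at h2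
  have h3 := KRel.right_eq_zero hζ' h2
  exact eq_of_sub_eq_zero (by rwa [sub_eq_add_neg])

/-- **equivariant Kummer theory**, with values in `B_S(L)`. -/
theorem exists_kummer_equiv (hpS : pPrime p ∈ S) (hL : L.IsUnramifiedOutside S)
    (hmu : ∀ s ∈ L.fixingSubgroup, cycloChar p s = 1)
    (hN : ∀ (g : GQ) (u : ↥L.fixingSubgroup), g⁻¹ * u * g ∈ L.fixingSubgroup) :
    ∃ e : ↥(Z1 ((levS S).sub L.fixingSubgroup)
          (1 : Representation (ZMod p) ↥L.fixingSubgroup (ZMod p))) ≃ₗ[ZMod p] ↥(BS p (SPl S L)),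
      ∀ (g : GQ) (f f' : ↥(Z1 ((levS S).sub L.fixingSubgroup)
          (1 : Representation (ZMod p) ↥L.fixingSubgroup (ZMod p)))),
        (∀ u : ↥L.fixingSubgroup,
          f'.1 u = ((cycloChar p g : (ZMod p)ˣ) : ZMod p) * f.1 ⟨g⁻¹ * u * g, hN g u⟩) →
        ((e f' : ↥(BS p (SPl S L))) : ModP p ↥L) = modPRep ↥L p (piL L g) (e f) := by
  obtain ⟨ζ, hζ⟩ := exists_primitiveRoot_of_cycloChar L hmu
  rw [TG6A.SPl_eq_aboveS]
  exact kummer_equiv_aux L hpS hL hζ L.fixingSubgroup (fixer_emb L).symm hN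

end Fermat.Agent.S56.EC
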