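import Fermat.Agent.S56.EC.Gal.Defs
import Fermat.Agent.S56.EC.Gal.KummerEq
import Fermat.Agent.CFT.T.LocH1
import Fermat.Agent.S56.EC.HQ.Hom

/-!
# S56 / EC / Gal : WPs EC-K1 .. EC-K5.    `h^1(G_S, N) ≤ ⟨N^*(1), E_S(L)/p⟩` for `N` projective over `𝔽_p[Gal(L/ℚ)]`.
-/

set_option autoImplicit false

open ExtCitation Module

namespace Fermat.Agent.S56.EC

open Fermat.Agent.CFT Fermat.Agent.CFT.Global Fermat.Agent.S14

/-! ### EC-K1 : `H^1(Γ, projective) = 0`  (Mathlib only) -/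

/-- For `k[Γ]` : `c(g)(x) = m(x) - m(g⁻¹ x)` with `m(x) := c(x)(x)`; then `powRep`, `IsoRep`, and a direct factor. -/
theorem exists_cob_of_isProj {k : Type} [Field k] {Γ : Type} [Group Γ] {V : Type} [AddCommGroup V]
    [Module k V] {σ : Representation k Γ V} (hσ : IsProj σ) (c : Γ → V)
    (hc : ∀ g h, c (g * h) = c g + σ g (c h)) : ∃ v : V, ∀ g, c g = σ g v - v := by
  obtain ⟨V₂, _, _, σ₂, ι, _, e, he⟩ := hσ
  -- the cocycle with values in the free module
  let c' : Γ → ι → Γ → k := fun g => e (c g, 0)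
  have hc' : ∀ g h, c' (g * h) = c' g + powRep ι (regRep k Γ) g (c' h) := by
    intro g h
    change e (c (g * h), 0) = e (c g, 0) + powRep ι (regRep k Γ) g (e (c h, 0))
    rw [← he, ← map_add, hc]
    simp
  let m : ι → Γ → k := fun i x => c' x i x
  have hm : ∀ g, c' g = powRep ι (regRep k Γ) g (-m) - (-m) := by
    intro g
    funext i x
    have h1 := congrFun (congrFun (hc' g (g⁻¹ * x)) i) x
    rw [mul_inv_cancel_left] at h1
    simp only [Pi.add_apply, powRep_apply, funRep_apply, smul_eq_mul, Pi.sub_apply, Pi.neg_apply,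
      map_neg, MonoidHom.one_apply, Module.End.one_apply] at h1 ⊢
    change c' x i x = c' g i x + c' (g⁻¹ * x) i (g⁻¹ * x) at h1
    change c' g i x = - c' (g⁻¹ * x) i (g⁻¹ * x) - - c' x i x
    rw [h1]
    ring
  refine ⟨(e.symm (-m)).1, fun g => ?_⟩
  have h2 : (c g, (0 : V₂)) = prodRep σ σ₂ g (e.symm (-m)) - e.symm (-m) := by
    apply e.injective
    rw [map_sub, he, e.apply_symm_apply]
    exact hm g
  exact congrArg Prod.fst h2

/-! ### EC-K2 : restriction to a normal level (abstract) -/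

section Abstract

variable {k : Type} [Field k] {G : Type} [Group G]

/-- `G` acts on functions on the normal subgroup `U`: `(g f)(u) = f (g⁻¹ u g)` -/
def conjFull (k : Type) [Field k] (U : Subgroup G) [hU : U.Normal] : Representation k G (↥U → k) where
  toFun g := LinearMap.funLeft k k (fun u : ↥U => (⟨g⁻¹ * u * g, by
    have := hU.conj_mem u.1 u.2 g⁻¹
    rwa [inv_inv] at this⟩ : ↥U))
  map_one' := by
    ext f u
    simp [LinearMap.funLeft]
  map_mul' g h := by
    ext f u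
    simp [LinearMap.funLeft, mul_assoc]

lemma conjFull_apply (U : Subgroup G) [hU : U.Normal] (g : G) (f : ↥U → k) (u : ↥U) :
    conjFull k U g f u = f ⟨g⁻¹ * u * g, by
      have := hU.conj_mem u.1 u.2 g⁻¹
      rwa [inv_inv] at this⟩ := rfl

lemma conjFull_mem_Z1 (𝒰 : Levels G) (U : Subgroup G) [U.Normal] (g : G) (f : ↥U → k)
    (hf : f ∈ Z1 (𝒰.sub U) (1 : Representation k ↥U k)) :
    conjFull k U g f ∈ Z1 (𝒰.sub U) (1 : Representation k ↥U k) := by
  have hn : ∀ u : ↥U, g⁻¹ * (u : G) * g ∈ U := fun u => by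
    have := (inferInstance : U.Normal).conj_mem u.1 u.2 g⁻¹
    rwa [inv_inv] at this
  have hmul : ∀ u s : ↥U, (⟨g⁻¹ * ((u * s : ↥U) : G) * g, hn (u * s)⟩ : ↥U) =
      ⟨g⁻¹ * (u : G) * g, hn u⟩ * ⟨g⁻¹ * (s : G) * g, hn s⟩ := fun u s => by
    apply Subtype.ext
    change g⁻¹ * ((u : G) * (s : G)) * g = (g⁻¹ * (u : G) * g) * (g⁻¹ * (s : G) * g)
    group
  refine ⟨LinearMap.mem_ker.2 ?_, ?_⟩
  · funext ⟨u, s⟩
    have h1 := congrFun (LinearMap.mem_ker.1 hf.1)
      ((⟨g⁻¹ * u * g, hn u⟩ : ↥U), (⟨g⁻¹ * s * g, hn s⟩ : ↥U))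
    rw [d12_apply] at h1 ⊢
    simp only [conjFull_apply, MonoidHom.one_apply, Module.End.one_apply] at h1 ⊢
    rw [hmul]
    exact h1
  · obtain ⟨_, ⟨W, hW, rfl⟩, h⟩ := hf.2
    refine ⟨_, ⟨W, hW, rfl⟩, fun u s hs => ?_⟩
    rw [conjFull_apply, conjFull_apply, hmul]
    refine h _ _ ?_
    rw [Subgroup.mem_subgroupOf] at hs ⊢
    have := (𝒰.normal W hW).conj_mem s.1 hs g⁻¹
    rwa [inv_inv] at this

/-- `G` acting on `Hom_𝒰(U,k) = Z^1(U,k)` by conjugation -/
def conjRep (k : Type) [Field k] (𝒰 : Levels G) (U : Subgroup G) [U.Normal] :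
    Representation k G ↥(Z1 (𝒰.sub U) (1 : Representation k ↥U k)) :=
  subRep (conjFull k U) _ (conjFull_mem_Z1 𝒰 U)

lemma kumAux_finrank_quot_le {M N : Type} [AddCommGroup M] [Module k M] [AddCommGroup N] [Module k N]
    [Module.Finite k N] (Φ : M →ₗ[k] N) (P : Submodule k M) (h : LinearMap.ker Φ ≤ P) :
    finrank k (M ⧸ P) ≤ finrank k N := by
  have h1 : finrank k (M ⧸ LinearMap.ker Φ) ≤ finrank k N :=
    (LinearEquiv.finrank_eq Φ.quotKerEquivRange).trans_le (Submodule.finrank_le _)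
  have hfinQ : Module.Finite k (M ⧸ LinearMap.ker Φ) :=
    Module.Finite.equiv Φ.quotKerEquivRange.symm
  refine le_trans ?_ h1
  exact LinearMap.finrank_le_finrank_of_surjective (f := Submodule.factor h)
    (Submodule.factor_surjective h)

lemma kumAux_finrank_H1_le (𝒰 : Levels G) {V : Type} [AddCommGroup V] [Module k V] [Module.Finite k V]
    (ρ : Representation k G V) {X : Type} [AddCommGroup X] [Module k X] [Module.Finite k X]
    (σX : Representation k G X) (Φ : ↥(Z1 𝒰 ρ) →ₗ[k] ↥(eqHom ρ.dual σX))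
    (hker : LinearMap.ker Φ ≤ (B1 ρ).submoduleOf (Z1 𝒰 ρ)) :
    finrank k (H1 𝒰 ρ) ≤ homDim ρ.dual σX :=
  kumAux_finrank_quot_le Φ _ hker

/-- `c ↦ (λ ↦ λ ∘ c|_U)` induces an injection `H^1(G,V) → Hom_G(V^*, Hom(U,k))`.
(`c(g⁻¹ u g) = g⁻¹ c(u)` for a cocycle `c`, `u ∈ U` acting trivially.) -/
theorem finrank_H1_le_homDim (𝒰 : Levels G) (U : Subgroup G) [U.Normal] (hU : U ∈ 𝒰.carrier)
    {V : Type} [AddCommGroup V] [Module k V] [Module.Finite k V] (ρ : Representation k G V)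
    (htriv : ∀ u ∈ U, ρ u = 1)
    (hcob : ∀ c ∈ Z1 𝒰 ρ, (∀ u ∈ U, c u = 0) → c ∈ B1 ρ)
    (hfin : Module.Finite k ↥(Z1 (𝒰.sub U) (1 : Representation k ↥U k))) :
    finrank k (H1 𝒰 ρ) ≤ homDim ρ.dual (conjRep k 𝒰 U) := by
  have hcoc : ∀ c ∈ Z1 𝒰 ρ, ∀ g h, c (g * h) = c g + ρ g (c h) := by
    intro c hc g h
    have h1 := congrFun (LinearMap.mem_ker.1 hc.1) (g, h)
    rw [d12_apply] at h1
    change ρ g (c h) - c (g * h) + c g = 0 at h1
    rw [sub_add_eq_add_sub, sub_eq_zero] at h1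
    rw [← h1, add_comm]
  have hone : ∀ c ∈ Z1 𝒰 ρ, c 1 = 0 := by
    intro c hc
    have := hcoc c hc 1 1
    rw [mul_one, map_one, Module.End.one_apply] at this
    exact left_eq_add.1 this
  have hconj : ∀ c ∈ Z1 𝒰 ρ, ∀ (g : G), ∀ u ∈ U, c (g⁻¹ * u * g) = ρ g⁻¹ (c u) := by
    intro c hc g u hu
    have h1 : c g⁻¹ + ρ g⁻¹ (c g) = 0 := by
      rw [← hcoc c hc, inv_mul_cancel, hone c hc]
    rw [mul_assoc, hcoc c hc, hcoc c hc u g, htriv u hu, Module.End.one_apply, map_add]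
    rw [add_comm (ρ g⁻¹ (c u)), ← add_assoc, h1, zero_add]
  -- `λ ∘ c|_U` is a cocycle
  have hmem : ∀ c ∈ Z1 𝒰 ρ, ∀ l : Dual k V, (fun u : ↥U => l (c u)) ∈
      Z1 (𝒰.sub U) (1 : Representation k ↥U k) := by
    intro c hc l
    refine ⟨LinearMap.mem_ker.2 ?_, ?_⟩
    · funext ⟨u, s⟩
      rw [d12_apply]
      simp only [MonoidHom.one_apply, Module.End.one_apply, Subgroup.coe_mul]
      rw [hcoc c hc, htriv u u.2, Module.End.one_apply, map_add]
      simp
    · obtain ⟨W, hW, h⟩ := hc.2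
      exact ⟨_, ⟨W, hW, rfl⟩, fun u s hs => by
        simp only [Subgroup.coe_mul]
        rw [h u s hs]⟩
  obtain ⟨Φ, hΦ⟩ : ∃ Φ : ↥(Z1 𝒰 ρ) →ₗ[k] ↥(eqHom ρ.dual (conjRep k 𝒰 U)),
      ∀ (c : ↥(Z1 𝒰 ρ)) (l : Dual k V) (u : ↥U), ((Φ c).1 l).1 u = l (c.1 u) := ⟨
    { toFun := fun c => ⟨
        { toFun := fun l => ⟨fun u : ↥U => l (c.1 u), hmem c.1 c.2 l⟩
          map_add' := fun l l' => rfl
          map_smul' := fun a l => rfl }, by
        intro g l
        apply Subtype.ext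
        funext u
        change (ρ.dual g l) (c.1 u) = l (c.1 (g⁻¹ * u * g))
        rw [hconj c.1 c.2 g u u.2, Representation.dual_apply]
        rfl⟩
      map_add' := fun c c' => by
        apply Subtype.ext
        ext l : 1
        apply Subtype.ext
        funext u
        exact map_add l _ _
      map_smul' := fun a c => by
        apply Subtype.ext
        ext l : 1
        apply Subtype.ext
        funext u
        exact map_smul l _ _ }, fun _ _ _ => rfl⟩
  have hker : LinearMap.ker Φ ≤ (B1 ρ).submoduleOf (Z1 𝒰 ρ) := by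
    intro c hc
    rw [LinearMap.mem_ker] at hc
    refine hcob c.1 c.2 (fun u hu => ?_)
    rw [← Module.forall_dual_apply_eq_zero_iff k]
    intro l
    have h1 := hΦ c l ⟨u, hu⟩
    rw [hc] at h1
    exact h1.symm
  exact kumAux_finrank_H1_le 𝒰 ρ (conjRep k 𝒰 U) Φ hker

end Abstract

variable (L : IntermediateField ℚ Qb) [FiniteDimensional ℚ L] [Normal ℚ L]
  {p : ℕ} [Fact p.Prime] {S : Finset Nat.Primes}

instance instNormalFixing : (L.fixingSubgroup).Normal := fixingSubgroup_normal L inferInstance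

/-- EC-K2 : cocycles vanishing on `Gal(Qb/L)` factor through `Γ`, then EC-K1. -/
theorem mem_B1_of_res_zero {V : Type} [AddCommGroup V] [Module (ZMod p) V]
    {σ : Representation (ZMod p) (↥L ≃ₐ[ℚ] ↥L) V} (hσ : IsProj σ) (c : GQ → V)
    (hc : c ∈ Z1 (levS S) (resRep (piL L) σ)) (h0 : ∀ u ∈ L.fixingSubgroup, c u = 0) :
    c ∈ B1 (resRep (piL L) σ) := by
  have hcoc : ∀ g h, c (g * h) = c g + σ (piL L g) (c h) := by
    intro g h
    have h1 := congrFun (LinearMap.mem_ker.1 hc.1) (g, h)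
    rw [d12_apply] at h1
    change σ (piL L g) (c h) - c (g * h) + c g = 0 at h1
    rw [sub_add_eq_add_sub, sub_eq_zero] at h1
    rw [← h1, add_comm]
  have hfac : ∀ g g', piL L g = piL L g' → c g = c g' := by
    intro g g' h
    have h1 : g⁻¹ * g' ∈ L.fixingSubgroup := by
      rw [← piL_eq_one_iff, map_mul, map_inv, h, inv_mul_cancel]
    have h2 : g' = g * (g⁻¹ * g') := by rw [mul_inv_cancel_left]
    rw [h2, hcoc, h0 _ h1, map_zero, add_zero]
  choose s hs using piL_surjective L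
  obtain ⟨v, hv⟩ := exists_cob_of_isProj hσ (fun γ => c (s γ)) (fun γ δ => by
    have h1 : c (s (γ * δ)) = c (s γ * s δ) := hfac _ _ (by rw [hs, map_mul, hs, hs])
    rw [h1, hcoc, hs])
  refine ⟨v, ?_⟩
  funext g
  rw [d01_apply]
  change σ (piL L g) v - v = c g
  rw [← hv, hfac g (s (piL L g)) (hs _).symm]

/-! ### EC-K3 : `B_S = E_S/p` if the places over `S` generate the class group -/

theorem supT_self {K : Type} [Field K] [NumberField K] (s : Finset (Pl K)) :
    supT p s s = ⊥ := by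
  have : {v : {v : Pl K // v ∉ s} | v.1 ∈ s} = ∅ := by
    ext v
    simp [v.2]
  rw [supT, this, Finsupp.supported_empty]

theorem BS_eq_space {K : Type} [Field K] [NumberField K] (s : Finset (Pl K)) (hs : GenCl s) :
    BS p s = SU.space p s := by
  ext a
  rw [← divP_mem_supT_iff (Finset.Subset.refl s) hs a, supT_self, Submodule.mem_bot]
  exact LinearMap.mem_ker

theorem clRank_eq_zero {K : Type} [Field K] [NumberField K] (s : Finset (Pl K)) (hs : GenCl s) :
    clRank p s = 0 := by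
  have h := supT_sup_range (p := p) (s := s) hs
  rw [supT_self, bot_sup_eq] at h
  unfold clRank
  have : Subsingleton (ClP p s) := by
    rw [ClP, h]
    exact Submodule.Quotient.subsingleton_iff.2 rfl
  exact Module.finrank_zero_of_subsingleton

/-! ### EC-K4 : equivariant Kummer theory -/

/-- **Equivariant Kummer isomorphism** `Hom_S(G_L, 𝔽_p)(1) ≅ E_S(L)/p`.
Recipe: as in `Global.H1_equiv_BS` (`Global/H1/Kummer.lean`), `exists_addEquiv_of_rel` applied to `KRel (emb L) ζ'` gives `e` WITH the spec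
`KRel f (e f)`; `BS = SU.space` (EC-K3).  Equivariance: if `KRel f a` via `(b,x)` (`x = b^p`, `ζ'^(f u) = u b / b`) then `(g b, g x)` shows
`KRel (u ↦ χ(g) f(g⁻¹ u g)) (g a)`: `u (g b) / g b = g ((g⁻¹ u g) b / b) = g (ζ'^(f(g⁻¹ u g))) = ζ'^(χ(g) f(g⁻¹ u g))`; conclude by uniqueness
(`KRel.add`, `KRel.neg`, `KRel.right_eq_zero`).  NB `fixer (emb L) = L.fixingSubgroup` is `fixer_emb L` (use the `subst` trick of `H1_equiv_BS`). -/
theorem isoRep_kummer (hpS : pPrime p ∈ S) (hL : L.IsUnramifiedOutside S)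
    (hmu : ∀ s ∈ L.fixingSubgroup, cycloChar p s = 1) (hgen : GenCl (SPl S L)) :
    IsoRep ((conjRep (ZMod p) (levS S) L.fixingSubgroup).twist (cycloChar p))
      (resRep (piL L) (suRep p (SPl S L) (sigmaPl_mem_SPl L))) := by
  have hN : ∀ (g : GQ) (u : ↥L.fixingSubgroup), g⁻¹ * u * g ∈ L.fixingSubgroup := fun g u => by
    have := (instNormalFixing L).conj_mem u.1 u.2 g⁻¹
    rwa [inv_inv] at this
  obtain ⟨e, he⟩ := exists_kummer_equiv L hpS hL hmu hN
  refine ⟨e.trans (LinearEquiv.ofEq _ _ (BS_eq_space (p := p) (SPl S L) hgen)),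
    fun g f => Subtype.ext ?_⟩
  exact he g f _ fun u => rfl

/-! ### EC-K5 : assembly -/

/-- (`finrank_H1_le_homDim`, `mem_B1_of_res_zero`, `homDim_twist`, `homDim_iso_right`, `dualTwist_comp_piL`, `homDim_comp`;
finiteness of `Z^1(G_L,𝔽_p)` from `isoRep_kummer` and `SU.finite_space`.) -/
theorem finrank_H1_le (hpS : pPrime p ∈ S) (hL : L.IsUnramifiedOutside S)
    (hmu : ∀ s ∈ L.fixingSubgroup, cycloChar p s = 1) (hgen : GenCl (SPl S L)) {V : Type}
    [AddCommGroup V] [Module (ZMod p) V] [Module.Finite (ZMod p) V]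
    {σ : Representation (ZMod p) (↥L ≃ₐ[ℚ] ↥L) V} (hσ : IsProj σ) :
    finrank (ZMod p) (H1 (levS S) (resRep (piL L) σ)) ≤
      homDim (σ.dual.twist (chiL L hmu)) (suRep p (SPl S L) (sigmaPl_mem_SPl L)) := by
  have hiso := isoRep_kummer L hpS hL hmu hgen
  obtain ⟨ζ, hζ⟩ := exists_primitiveRoot_of_cycloChar L hmu
  have hfin0 := SU.finite_space hζ (SPl S L)
  have hfin1 : Module.Finite (ZMod p) ↥(SU.space p (SPl S L)) := Module.Finite.of_finite
  have hfin : Module.Finite (ZMod p)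
      ↥(Z1 ((levS S).sub L.fixingSubgroup) (1 : Representation (ZMod p) ↥L.fixingSubgroup (ZMod p))) := by
    obtain ⟨e, -⟩ := hiso
    exact Module.Finite.equiv e.symm
  have h1 := finrank_H1_le_homDim (levS S) L.fixingSubgroup ⟨L, hL, inferInstance, rfl⟩
    (resRep (piL L) σ)
    (fun u hu => by
      show σ (piL L u) = 1
      rw [(piL_eq_one_iff L u).2 hu, map_one])
    (fun c hc h0 => mem_B1_of_res_zero L hσ c hc h0) hfin
  refine h1.trans (le_of_eq ?_)
  rw [← homDim_twist (cycloChar p), dualTwist_comp_piL L hmu, homDim_iso_right _ hiso]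
  exact homDim_comp (piL L) (piL_surjective L) _ _

end Fermat.Agent.S56.EC
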