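import Fermat.Agent.S56.EC.Gal.Defs
import Fermat.Agent.S56.EC.HQ.Hom

/-!
# S56 / EC / Gal : WP EC-N2.   The infinite places of `L` are `Γ / ⟨π c⟩`.
-/

set_option autoImplicit false
set_option linter.unusedSectionVars false

open ExtCitation Module

namespace Fermat.Agent.S56.EC

open Fermat.Agent.CFT Fermat.Agent.CFT.Global Fermat.Agent.S14 NumberField

variable (L : IntermediateField ℚ Qb) [FiniteDimensional ℚ L] [Normal ℚ L]
  {p : ℕ} [Fact p.Prime]

/-- the distinguished complex embedding of `L` -/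
noncomputable def embInf : ↥L →+* ℂ := (complexEmbedding : Qb →+* ℂ).comp (algebraMap ↥L Qb)

/-- the distinguished infinite place of `L` -/
noncomputable def plInf : InfinitePlace ↥L := InfinitePlace.mk (embInf L)

theorem isConj_embInf : ComplexEmbedding.IsConj (embInf L) (piL L complexConjugation) := by
  ext x
  show starRingEnd ℂ (complexEmbedding (x : Qb)) =
    complexEmbedding ((piL L complexConjugation x : ↥L) : Qb)
  rw [piL_apply, complexEmbedding_complexConjugation]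

theorem mem_stabilizer_plInf (σ : ↥L ≃ₐ[ℚ] ↥L) :
    σ ∈ MulAction.stabilizer (↥L ≃ₐ[ℚ] ↥L) (plInf L) ↔ σ = 1 ∨ σ = piL L complexConjugation := by
  rw [plInf, InfinitePlace.mem_stabilizer_mk_iff]
  refine or_congr Iff.rfl ?_
  exact ⟨fun h => h.ext (isConj_embInf L), fun h => h ▸ isConj_embInf L⟩

theorem exists_smul_plInf (w : InfinitePlace ↥L) : ∃ σ : ↥L ≃ₐ[ℚ] ↥L, σ • plInf L = w := by
  have : IsGalois ℚ ↥L := ⟨⟩
  exact InfinitePlace.exists_smul_eq_of_comap_eq (k := ℚ) (Subsingleton.elim _ _)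

/-- `Γ / Stab ≃ ∞_L`, equivariantly -/
noncomputable def equivInf :
    ((↥L ≃ₐ[ℚ] ↥L) ⧸ MulAction.stabilizer (↥L ≃ₐ[ℚ] ↥L) (plInf L)) ≃ InfinitePlace ↥L :=
  Equiv.ofBijective (MulAction.ofQuotientStabilizer (↥L ≃ₐ[ℚ] ↥L) (plInf L))
    ⟨MulAction.injective_ofQuotientStabilizer _ _, fun w => by
      obtain ⟨σ, hσ⟩ := exists_smul_plInf L w
      exact ⟨QuotientGroup.mk σ, hσ⟩⟩

theorem equivInf_smul (g : ↥L ≃ₐ[ℚ] ↥L)
    (x : (↥L ≃ₐ[ℚ] ↥L) ⧸ MulAction.stabilizer (↥L ≃ₐ[ℚ] ↥L) (plInf L)) :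
    equivInf L (g • x) = g • equivInf L x :=
  MulAction.ofQuotientStabilizer_smul _ _ g x

/-- **(N2)** -/
theorem homDim_infinite_aux {Q : Type} [AddCommGroup Q] [Module (ZMod p) Q]
    [Module.Finite (ZMod p) Q]
    {σQ : Representation (ZMod p) (↥L ≃ₐ[ℚ] ↥L) Q} (hQ : IsProj σQ) :
    homDim σQ (funRep (InfinitePlace ↥L) (1 : Representation (ZMod p) (↥L ≃ₐ[ℚ] ↥L) (ZMod p))) =
      finrank (ZMod p) ↥(LinearMap.ker (σQ (piL L complexConjugation) - 1)) := by
  rw [← homDim_iso_right σQ (funRep_equiv (equivInf L) (equivInf_smul L) 1),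
    homDim_funRep_quot hQ]
  have key : (resRep (MulAction.stabilizer (↥L ≃ₐ[ℚ] ↥L) (plInf L)).subtype σQ).invariants =
      LinearMap.ker (σQ (piL L complexConjugation) - 1) := by
    ext v
    rw [Representation.mem_invariants, LinearMap.mem_ker, LinearMap.sub_apply, sub_eq_zero]
    constructor
    · intro h
      exact h ⟨piL L complexConjugation, (mem_stabilizer_plInf L _).2 (Or.inr rfl)⟩
    · rintro h ⟨σ, hσ⟩
      rcases (mem_stabilizer_plInf L σ).1 hσ with rfl | rfl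
      · show σQ 1 v = v
        rw [map_one]; rfl
      · exact h
  rw [key]

end Fermat.Agent.S56.EC
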