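import Fermat.Agent.S56.EC.Gal.Defs
import Fermat.Agent.S56.EC.HQ.Hom
import Fermat.Agent.CFT.Global.Num.Places

/-!
# S56 / EC / Gal : WP EC-N1.   The finite places of `L` over `S` as a `Γ`-set.
-/

set_option autoImplicit false
set_option linter.unusedSectionVars false

open ExtCitation Module

namespace Fermat.Agent.S56.EC

open Fermat.Agent.CFT Fermat.Agent.CFT.Global Fermat.Agent.S14 NumberField Fermat.Agent.Bridge
open IsDedekindDomain
open scoped Pointwise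

attribute [local instance] plAct

variable (L : IntermediateField ℚ Qb) [FiniteDimensional ℚ L] [Normal ℚ L]
  {p : ℕ} [Fact p.Prime] {S : Finset Nat.Primes}

theorem mem_sigmaPl_asIdeal (γ : ↥L ≃ₐ[ℚ] ↥L) (v : Pl ↥L) (x : 𝓞 ↥L) :
    x ∈ (sigmaPl γ v).asIdeal ↔
      (RingOfIntegers.mapRingEquiv (γ : ↥L ≃+* ↥L)).symm x ∈ v.asIdeal := Iff.rfl

theorem plO_smul_aux (q : Nat.Primes) (g σ : GQ) :
    plO L q (σ * g⁻¹) = sigmaPl (piL L g) (plO L q σ) := by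
  apply HeightOneSpectrum.ext
  ext x
  rw [mem_sigmaPl_asIdeal, plO_asIdeal, plO_asIdeal, mem_primeBelow_iff, mem_primeBelow_iff,
    mul_inv_rev, inv_inv, mul_smul, mem_smul_nonunits_iff]
  have h1 : g⁻¹ (emb L (x : ↥L)) =
      emb L (((RingOfIntegers.mapRingEquiv ((piL L g : ↥L ≃ₐ[ℚ] ↥L) : ↥L ≃+* ↥L)).symm x : 𝓞 ↥L) : ↥L) := by
    have h2 := piL_apply L g⁻¹ (x : ↥L)
    rw [map_inv] at h2
    exact h2.symm
  rw [h1]

theorem stabilizer_plO_aux (q : Nat.Primes) (γ : ↥L ≃ₐ[ℚ] ↥L) :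
    sigmaPl γ (plO L q 1) = plO L q 1 ↔ ∃ g ∈ decomp q, piL L g = γ := by
  constructor
  · intro h
    obtain ⟨g₀, rfl⟩ := piL_surjective L γ
    rw [← plO_smul_aux] at h
    have h1 : primeBelow (emb L) ((1 * g₀⁻¹)⁻¹ • primeLocalPlace q) =
      primeBelow (emb L) ((1 : GQ)⁻¹ • primeLocalPlace q) := congrArg (·.asIdeal) h
    obtain ⟨n, hn, hn'⟩ := exists_smul_eq_of_primeBelow_eq (emb L) q.2
      (liesOverPrime_smul (liesOverPrime_primeLocalPlace q) _)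
      (liesOverPrime_smul (liesOverPrime_primeLocalPlace q) _) h1
    rw [fixer_emb] at hn
    refine ⟨n * g₀, ?_, ?_⟩
    · change (n * g₀) • primeLocalPlace q = primeLocalPlace q
      rw [one_mul, inv_inv, inv_one, one_smul] at hn'
      rw [mul_smul, hn']
    · rw [map_mul, (piL_eq_one_iff L n).2 hn, one_mul]
  · rintro ⟨g, hg, rfl⟩
    rw [← plO_smul_aux]
    apply HeightOneSpectrum.ext
    rw [plO_asIdeal, plO_asIdeal, one_mul, inv_inv, inv_one, one_smul]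
    have h5 : g • primeLocalPlace q = primeLocalPlace q := hg
    rw [h5]

theorem above_sigmaPl_plO (q : Nat.Primes) (γ : ↥L ≃ₐ[ℚ] ↥L) :
    Above (q : ℕ) (sigmaPl γ (plO L q 1)) := by
  obtain ⟨g, rfl⟩ := piL_surjective L γ
  rw [← plO_smul_aux]
  exact above_plO L q _

theorem exists_unique_orbit_plO_aux (v : Pl ↥L) (hv : v ∈ SPl S L) :
    ∃! q : ↥S, ∃ γ : ↥L ≃ₐ[ℚ] ↥L, v = sigmaPl γ (plO L q.1 1) := by
  rw [mem_SPl] at hv
  obtain ⟨q, hq, hv⟩ := hv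
  refine ⟨⟨q, hq⟩, ?_, ?_⟩
  · have := v.isPrime
    obtain ⟨A', hA', hP⟩ := exists_place (emb L) q.2 v.asIdeal hv
    obtain ⟨σ, hσ⟩ := exists_smul_eq q.2 (liesOverPrime_primeLocalPlace q) hA'
    refine ⟨piL L σ, ?_⟩
    rw [← plO_smul_aux]
    apply HeightOneSpectrum.ext
    rw [plO_asIdeal, one_mul, inv_inv, hσ, hP]
  · rintro ⟨q', hq'⟩ ⟨γ, rfl⟩
    apply Subtype.ext
    apply Subtype.ext
    exact above_unique q'.2 q.2 (above_sigmaPl_plO L q' γ) hv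

/-- the distinguished places -/
noncomputable def plRep (q : ↥S) : ↥(plSub (SPl S L) (sigmaPl_mem_SPl L)) :=
  ⟨plO L q.1 1, mem_SPl.2 ⟨q.1, q.2, above_plO L q.1 1⟩⟩

theorem homDim_places_aux {Q : Type} [AddCommGroup Q] [Module (ZMod p) Q] [Module.Finite (ZMod p) Q]
    {σQ : Representation (ZMod p) (↥L ≃ₐ[ℚ] ↥L) Q} (hQ : IsProj σQ) :
    homDim σQ (funRep ↥(plSub (SPl S L) (sigmaPl_mem_SPl L))
        (1 : Representation (ZMod p) (↥L ≃ₐ[ℚ] ↥L) (ZMod p))) =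
      ∑ v : (DS S).ι, finrank (ZMod p) ↥((DS S).loc (resRep (piL L) σQ) v).invariants := by
  have h1 := (homFun σQ hQ).ev_funRep_eq_sum ↥(plSub (SPl S L) (sigmaPl_mem_SPl L))
    (plRep (S := S) L) (fun y => by
      obtain ⟨q, ⟨γ, hγ⟩, huniq⟩ := exists_unique_orbit_plO_aux L y.1 y.2
      refine ⟨q, ⟨γ, Subtype.ext hγ.symm⟩, ?_⟩
      rintro q' ⟨γ', hγ'⟩
      exact huniq q' ⟨γ', (congrArg Subtype.val hγ').symm⟩)
    (1 : Representation (ZMod p) (↥L ≃ₐ[ℚ] ↥L) (ZMod p))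
  simp only [homFun_ev] at h1
  have h2 : (homDim σQ (funRep ↥(plSub (SPl S L) (sigmaPl_mem_SPl L))
        (1 : Representation (ZMod p) (↥L ≃ₐ[ℚ] ↥L) (ZMod p)))) =
      ∑ i : ↥S, homDim σQ (funRep ((↥L ≃ₐ[ℚ] ↥L) ⧸
        MulAction.stabilizer (↥L ≃ₐ[ℚ] ↥L) (plRep (S := S) L i))
        (1 : Representation (ZMod p) (↥L ≃ₐ[ℚ] ↥L) (ZMod p))) := by
    exact_mod_cast h1
  rw [h2]
  refine Finset.sum_congr rfl fun q _ => ?_
  rw [homDim_funRep_quot hQ]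
  have key : (resRep (MulAction.stabilizer (↥L ≃ₐ[ℚ] ↥L) (plRep (S := S) L q)).subtype σQ).invariants =
      ((DS S).loc (resRep (piL L) σQ) q).invariants := by
    ext v
    rw [Representation.mem_invariants, Representation.mem_invariants]
    constructor
    · rintro h ⟨g, hg⟩
      refine h ⟨piL L g, ?_⟩
      rw [MulAction.mem_stabilizer_iff]
      exact Subtype.ext ((stabilizer_plO_aux L q.1 _).2 ⟨g, hg, rfl⟩)
    · rintro h ⟨γ, hγ⟩
      rw [MulAction.mem_stabilizer_iff] at hγ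
      obtain ⟨g, hg, rfl⟩ := (stabilizer_plO_aux L q.1 γ).1 (congrArg Subtype.val hγ)
      exact h ⟨g, hg⟩
  rw [key]

end Fermat.Agent.S56.EC
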