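import Fermat.Agent.S56.EC.Gal.Kummer

/-!
# S56 / EC / Gal : `2 χ(G_S, 𝔽_p[Gal(L/ℚ)]) = -[L:ℚ]` if `μ_p ⊆ L` and the places over `S` generate the class group.
-/

set_option autoImplicit false

open ExtCitation Module

namespace Fermat.Agent.S56.EC.Reg

open Fermat.Agent.CFT Fermat.Agent.CFT.Global Fermat.Agent.S14 NumberField

variable (L : IntermediateField ℚ Qb) [FiniteDimensional ℚ L] [Normal ℚ L]
  {p : ℕ} [Fact p.Prime] {S : Finset Nat.Primes}

theorem two_mul_eulerChar_genCl' (hp2 : p ≠ 2) (hpS : pPrime p ∈ S)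
    (hL : L.IsUnramifiedOutside S)
    (hmu : ∀ s ∈ L.fixingSubgroup, cycloChar p s = 1) (hgen : GenCl (SPl S L)) :
    2 * (DS S).eulerChar (permRep (ZMod p) L.fixingSubgroup) = -(L.fixingSubgroup.index : ℤ) := by
  classical
  obtain ⟨lam, Φ, w⟩ := exists_wctx_DS hp2 S hpS
  have ctx := w.ctx
  have hmem : L.fixingSubgroup ∈ (levS S).carrier := ⟨L, hL, inferInstance, rfl⟩
  have hN : (L.fixingSubgroup).Normal := (levS S).normal _ hmem
  have hFI : (L.fixingSubgroup).FiniteIndex := (levS S).finiteIndex _ hmem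
  obtain ⟨R⟩ := (DS S).exists_restrData hmem
  obtain ⟨e⟩ := nonempty_iso_restr_DF S hmem R
  have hA := isPlaceSystem_restrPlace S hmem R
  obtain ⟨ζ, hζ⟩ := exists_zeta (p := p) L hmu
  have hp3 : 2 < p := lt_of_le_of_ne (Fact.out : p.Prime).two_le (Ne.symm hp2)
  have hsm : IsSmooth (DS S).lev (permRep (ZMod p) L.fixingSubgroup) :=
    (isSmooth_one (DS S).lev).mapRep hmem
  -- `h^0`
  have h0 := finrank_invariants_permRep (DS S) (ZMod p) hmem
  -- `h^2`
  have iso' : IsoRep ((permRep (ZMod p) L.fixingSubgroup).dual.twist (cycloChar p))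
      (piRep (finrank (ZMod p) (ZMod p)) (permRep (ZMod p) L.fixingSubgroup)) :=
    isoRep_mapRep_dualTwist (ρ := (1 : Representation (ZMod p) GQ (ZMod p))) (fun _ _ _ => rfl) hmu
  have h2 := finrank_H2 w hsm
  have hInvG : finrank (ZMod p)
      ↥((permRep (ZMod p) L.fixingSubgroup).dual.twist (cycloChar p)).invariants = 1 := by
    obtain ⟨e1⟩ := iso'.invariants'
    obtain ⟨e2⟩ := invariants_piRep' (permRep (ZMod p) L.fixingSubgroup) (finrank (ZMod p) (ZMod p))
    rw [(e1.trans e2).finrank_eq, LinAlg.finrank_fin_pi, h0, finrank_self]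
  have hInv : ∀ v, finrank (ZMod p)
      ↥((DS S).loc ((permRep (ZMod p) L.fixingSubgroup).dual.twist (cycloChar p)) v).invariants =
      finrank (ZMod p) ↥((DS S).loc (permRep (ZMod p) L.fixingSubgroup) v).invariants := fun v => by
    obtain ⟨e1⟩ := (iso'.comp' ((DS S).r v)).invariants'
    obtain ⟨e2⟩ := invariants_piRep' ((DS S).loc (permRep (ZMod p) L.fixingSubgroup) v)
      (finrank (ZMod p) (ZMod p))
    rw [(e1.trans e2).finrank_eq, LinAlg.finrank_fin_pi, finrank_self, one_mul]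
  rw [hInvG, finrank_Sha1_dualTwist ctx hsm, Finset.sum_congr rfl (fun v _ => hInv v)] at h2
  have E4 : (∑ v, finrank (ZMod p)
      ↥((DS S).loc (permRep (ZMod p) L.fixingSubgroup) v).invariants) = (SPl S L).card := by
    rw [← card_sigma_O_eq L R, Fintype.card_sigma]
    exact Finset.sum_congr rfl fun v _ => (DS S).finrank_invariants_loc_permRep hmem R v
  -- `sha^2 = 0`
  obtain ⟨eSha2⟩ := (DS S).Sha2_restr hmem R (ZMod p)
  obtain ⟨eS⟩ := IsoAux.Sha2_iso (k := ZMod p) e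
  obtain ⟨-, e6⟩ := sha2_le_proof (hasseS hp2 ⟨pPrime p, hpS, rfl⟩) hpS L hL hζ
    ((DF S L.fixingSubgroup (restrPlace S R)).ShaZ2
      (1 : Representation (ZMod p) (DF S L.fixingSubgroup (restrPlace S R)).G (ZMod p)))
    (fun x hx => ⟨hx.1, locTriv_all _ hA hx⟩)
  have e6' : finrank (ZMod p) ((DF S L.fixingSubgroup (restrPlace S R)).Sha2
      (1 : Representation (ZMod p) (DF S L.fixingSubgroup (restrPlace S R)).G (ZMod p))) ≤
      clRank p (SPl S L) := e6
  rw [clRank_eq_zero (SPl S L) hgen] at e6'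
  have hsha : finrank (ZMod p) ((DS S).Sha2 (permRep (ZMod p) L.fixingSubgroup)) = 0 := by
    exact eSha2.finrank_eq.trans (eS.finrank_eq.trans (Nat.le_zero.1 e6'))
  -- `h^1`
  obtain ⟨eH1⟩ := (DS S).H1_restr hmem R (ZMod p)
  obtain ⟨eH1'⟩ := IsoAux.H1_iso (k := ZMod p) e.eG e.lev_le e.lev_ge
  obtain ⟨-, e1⟩ := finrank_H1_eq hpS L hL hζ
  obtain ⟨-, -, e2⟩ := finrank_BS hζ (SPl S L)
  rw [clRank_eq_zero (SPl S L) hgen] at e2
  have e3 := two_mul_rank_add_one hp3 hζ
  have e5 := index_eq_finrank L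
  have h1 : finrank (ZMod p) (H1 (DS S).lev (permRep (ZMod p) L.fixingSubgroup)) =
      Units.rank ↥L + 1 + (SPl S L).card + 0 := by
    rw [eH1.finrank_eq, eH1'.finrank_eq, ← e2, ← e1]
    rfl
  unfold Datum.eulerChar
  rw [h0, h1, e5, ← e3]
  rw [hsha, E4] at h2
  push_cast
  have h2' : (finrank (ZMod p) (H2 (DS S).lev (permRep (ZMod p) L.fixingSubgroup)) : ℤ) + 1 =
      0 + ((SPl S L).card : ℤ) := by exact_mod_cast h2
  linarith

end Fermat.Agent.S56.EC.Reg
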