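import Fermat.Agent.S56.EC.Gal.Kummer
import Fermat.Agent.S56.EC.Gal.Reg
import Fermat.Agent.GAL.PC.CycloPow

/-!
# S56 / EC / Gal : WP EC-N4.   The free module.
-/

set_option autoImplicit false

open ExtCitation Module

namespace Fermat.Agent.S56.EC

open Fermat.Agent.CFT Fermat.Agent.CFT.Global Fermat.Agent.S14 NumberField

namespace NumReg

variable (L : IntermediateField ℚ Qb) [FiniteDimensional ℚ L] [Normal ℚ L]
  {p : ℕ} [Fact p.Prime] {S : Finset Nat.Primes}

/-- `GQ / Gal(Qb/L) ≃ Gal(L/ℚ)` -/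
noncomputable def quotEquiv : (GQ ⧸ L.fixingSubgroup) ≃ (↥L ≃ₐ[ℚ] ↥L) :=
  Equiv.ofBijective
    (fun x => Quotient.liftOn' x (piL L) (fun a b h => by
      rw [QuotientGroup.leftRel_apply, ← piL_eq_one_iff, map_mul, map_inv] at h
      exact (inv_mul_eq_one.1 h)))
    (by
      constructor
      · intro x y
        induction x using QuotientGroup.induction_on with
        | H a =>
          induction y using QuotientGroup.induction_on with
          | H b =>
            intro h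
            have h' : piL L a = piL L b := h
            rw [QuotientGroup.eq, ← piL_eq_one_iff, map_mul, map_inv, h', inv_mul_cancel]
      · intro γ
        obtain ⟨g, rfl⟩ := piL_surjective L γ
        exact ⟨(g : GQ ⧸ L.fixingSubgroup), rfl⟩)

lemma quotEquiv_mk (g : GQ) : quotEquiv L (g : GQ ⧸ L.fixingSubgroup) = piL L g := rfl

lemma quotEquiv_smul (g : GQ) (x : GQ ⧸ L.fixingSubgroup) :
    quotEquiv L (g • x) = piL L g * quotEquiv L x := by
  induction x using QuotientGroup.induction_on with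
  | H a =>
    show quotEquiv L ((g * a : GQ) : GQ ⧸ L.fixingSubgroup) = _
    rw [quotEquiv_mk, quotEquiv_mk, map_mul]

lemma index_eq_card : L.fixingSubgroup.index = Nat.card (↥L ≃ₐ[ℚ] ↥L) :=
  Nat.card_congr (quotEquiv L)

theorem isoRep_reg_permRep_aux :
    IsoRep (resRep (piL L) (regRep (ZMod p) (↥L ≃ₐ[ℚ] ↥L))) (permRep (ZMod p) L.fixingSubgroup) := by
  refine ⟨LinearEquiv.funCongrLeft (ZMod p) (ZMod p) (quotEquiv L), fun g F => ?_⟩
  funext x
  show F ((piL L g)⁻¹ • quotEquiv L x) = F (quotEquiv L (g⁻¹ • x))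
  rw [quotEquiv_smul, map_inv, smul_eq_mul]

lemma two_ne_zero_aux (hp2 : p ≠ 2) : (2 : ZMod p) ≠ 0 := by
  intro h0
  have h' : ((2 : ℕ) : ZMod p) = 0 := by exact_mod_cast h0
  rw [ZMod.natCast_eq_zero_iff] at h'
  exact hp2 ((Nat.prime_dvd_prime_iff_eq Fact.out Nat.prime_two).mp h')

lemma finrank_ker_iso {k G V W : Type} [Field k] [Group G] [AddCommGroup V] [Module k V]
    [AddCommGroup W] [Module k W] {ρ : Representation k G V} {σ : Representation k G W}
    (h : IsoRep ρ σ) (c : G) :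
    finrank k ↥(LinearMap.ker (ρ c - 1)) = finrank k ↥(LinearMap.ker (σ c - 1)) := by
  obtain ⟨e, he⟩ := h
  refine LinearEquiv.finrank_eq (e.submoduleMap _ |>.trans (LinearEquiv.ofEq _ _ ?_))
  ext w
  rw [Submodule.mem_map, LinearMap.mem_ker]
  constructor
  · rintro ⟨v, hv, rfl⟩
    rw [LinearMap.mem_ker, LinearMap.sub_apply, Module.End.one_apply, sub_eq_zero] at hv
    rw [LinearMap.sub_apply, Module.End.one_apply, sub_eq_zero]
    show σ _ (e v) = e v
    rw [← he, hv]
  · intro hw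
    rw [LinearMap.sub_apply, Module.End.one_apply, sub_eq_zero] at hw
    refine ⟨e.symm w, ?_, e.apply_symm_apply w⟩
    rw [LinearMap.mem_ker, LinearMap.sub_apply, Module.End.one_apply, sub_eq_zero]
    apply e.injective
    rw [he, e.apply_symm_apply, hw]

theorem two_mul_finrank_reg_invol_aux (hp2 : p ≠ 2)
    (hmu : ∀ s ∈ L.fixingSubgroup, cycloChar p s = 1) :
    2 * finrank (ZMod p) ↥(LinearMap.ker
      (regRep (ZMod p) (↥L ≃ₐ[ℚ] ↥L) (piL L complexConjugation) - 1)) =
      Nat.card (↥L ≃ₐ[ℚ] ↥L) := by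
  have hc : chiL L hmu (piL L complexConjugation) = -1 := by
    rw [chiL_piL]
    apply Units.ext
    rw [Units.val_neg, Units.val_one]
    exact Fermat.Agent.GAL.PC.cycloChar_complexConjugation p
  have e4 := finrank_invariants_dualTwist_invol (two_ne_zero_aux hp2)
    (regRep (ZMod p) (↥L ≃ₐ[ℚ] ↥L)) (chiL L hmu) (piL L complexConjugation)
    (by rw [← map_mul, complexConjugation_mul_self, map_one]) hc
  rw [finrank_ker_iso (isoRep_reg_dualTwist (chiL L hmu)) (piL L complexConjugation)] at e4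
  have : Fintype (↥L ≃ₐ[ℚ] ↥L) := Fintype.ofFinite _
  rw [Module.finrank_fintype_fun_eq_card, ← Nat.card_eq_fintype_card] at e4
  omega

theorem ecFun_reg_aux (hp2 : p ≠ 2) (hpS : pPrime p ∈ S) (hL : L.IsUnramifiedOutside S)
    (hmu : ∀ s ∈ L.fixingSubgroup, cycloChar p s = 1) (hgen : GenCl (SPl S L)) :
    (ecFun L hp2 hpS hL).ev (regRep (ZMod p) (↥L ≃ₐ[ℚ] ↥L)) = 0 := by
  have h1 := Reg.two_mul_eulerChar_genCl' L hp2 hpS hL hmu hgen
  have h2 := two_mul_finrank_reg_invol_aux L hp2 hmu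
  have h := isoRep_reg_permRep_aux (p := p) L
  obtain ⟨e1⟩ := IsoRep.invariants' h
  obtain ⟨e2⟩ := IsoRep.H1 (D := DS S) h
  obtain ⟨e3⟩ := IsoRep.H2' (levS S) h
  have h3 : (DS S).eulerChar (resRep (piL L) (regRep (ZMod p) (↥L ≃ₐ[ℚ] ↥L))) =
      (DS S).eulerChar (permRep (ZMod p) L.fixingSubgroup) := by
    unfold Datum.eulerChar
    rw [e1.finrank_eq, e2.finrank_eq, e3.finrank_eq]
  rw [ecFun_ev, h3]
  have : Fintype (↥L ≃ₐ[ℚ] ↥L) := Fintype.ofFinite _
  rw [Module.finrank_fintype_fun_eq_card, ← Nat.card_eq_fintype_card]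
  rw [index_eq_card] at h1
  omega

end NumReg

end Fermat.Agent.S56.EC
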