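import Fermat.Agent.S56.EC.Gal.Kummer
import Fermat.Agent.S56.EC.Gal.Reg
import Fermat.Agent.GAL.PC.CycloPow
import Fermat.Agent.S56.EC.Gal.NumInf
import Fermat.Agent.S56.EC.Gal.NumPl
import Fermat.Agent.S56.EC.Gal.NumReg

/-!
# S56 / EC / Gal : WPs EC-N1 .. EC-N6.   The local terms, the free module, `f ≥ 0` on projectives.
-/

set_option autoImplicit false

open ExtCitation Module

namespace Fermat.Agent.S56.EC

open Fermat.Agent.CFT Fermat.Agent.CFT.Global Fermat.Agent.S14 NumberField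

attribute [local instance] plAct

variable (L : IntermediateField ℚ Qb) [FiniteDimensional ℚ L] [Normal ℚ L]
  {p : ℕ} [Fact p.Prime] {S : Finset Nat.Primes}

/-! ### EC-N1 : the finite places -/

/-- compatibility of the two actions on places: the place below `g • A` is `π(g) • (place below A)` -/
theorem plO_smul (q : Nat.Primes) (g σ : GQ) :
    plO L q (σ * g⁻¹) = sigmaPl (piL L g) (plO L q σ) :=
  plO_smul_aux L q g σ

/-- the stabiliser of the distinguished place of `L` over `q` is the image of the decomposition group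
(`⊆`: `Bridge.exists_smul_eq_of_primeBelow_eq`, as in `plO_injective`). -/
theorem stabilizer_plO (q : Nat.Primes) (γ : ↥L ≃ₐ[ℚ] ↥L) :
    sigmaPl γ (plO L q 1) = plO L q 1 ↔ ∃ g ∈ decomp q, piL L g = γ :=
  stabilizer_plO_aux L q γ

/-- every place over `S` is conjugate to exactly one distinguished place (`plO_surjective`-style, or `S14.exists_sigmaPl_eq`; `above_unique`) -/
theorem exists_unique_orbit_plO (v : Pl ↥L) (hv : v ∈ SPl S L) :
    ∃! q : ↥S, ∃ γ : ↥L ≃ₐ[ℚ] ↥L, v = sigmaPl γ (plO L q.1 1) :=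
  exists_unique_orbit_plO_aux L v hv

/-- **(N3)**  `⟨Q, 𝔽_p[S_L]⟩ = ∑_{v ∈ S} h^0(D_v, Q)` for projective `Q`
(`AddFun.ev_funRep_eq_sum` for `homFun σQ hQ`, `homDim_funRep_quot`, EC-N1 lemmas; the invariants of `Stab` and of `decomp v` are the same subspace). -/
theorem homDim_places {Q : Type} [AddCommGroup Q] [Module (ZMod p) Q] [Module.Finite (ZMod p) Q]
    {σQ : Representation (ZMod p) (↥L ≃ₐ[ℚ] ↥L) Q} (hQ : IsProj σQ) :
    homDim σQ (funRep ↥(plSub (SPl S L) (sigmaPl_mem_SPl L))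
        (1 : Representation (ZMod p) (↥L ≃ₐ[ℚ] ↥L) (ZMod p))) =
      ∑ v : (DS S).ι, finrank (ZMod p) ↥((DS S).loc (resRep (piL L) σQ) v).invariants :=
  homDim_places_aux L hQ

/-! ### EC-N2 : the infinite places -/

/-- **(N2)**  `⟨Q, 𝔽_p[∞_L]⟩ = dim Q^c`.   `w₀ := InfinitePlace.mk (complexEmbedding ∘ emb L)`; `Γ` is transitive
(`InfinitePlace.exists_smul_eq_of_comap_eq`, `IsGalois ℚ L`; all places of `ℚ` are equal: `Subsingleton (InfinitePlace ℚ)`),
`Stab w₀ = {1, π c}` (`InfinitePlace.mem_stabilizer_mk_iff`, `ComplexEmbedding.IsConj`, `complexEmbedding_complexConjugation`). -/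
theorem homDim_infinite {Q : Type} [AddCommGroup Q] [Module (ZMod p) Q] [Module.Finite (ZMod p) Q]
    {σQ : Representation (ZMod p) (↥L ≃ₐ[ℚ] ↥L) Q} (hQ : IsProj σQ) :
    homDim σQ (funRep (InfinitePlace ↥L) (1 : Representation (ZMod p) (↥L ≃ₐ[ℚ] ↥L) (ZMod p))) =
      finrank (ZMod p) ↥(LinearMap.ker (σQ (piL L complexConjugation) - 1)) :=
  homDim_infinite_aux L hQ

/-! ### EC-N3 : `f ≥ 0` on projectives -/

/-- invariants of an inflated representation -/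
lemma finrank_invariants_comp_piL {V : Type} [AddCommGroup V] [Module (ZMod p) V]
    (σ : Representation (ZMod p) (↥L ≃ₐ[ℚ] ↥L) V) :
    finrank (ZMod p) ↥(resRep (piL L) σ).invariants = finrank (ZMod p) ↥σ.invariants := by
  have : (resRep (piL L) σ).invariants = σ.invariants := by
    ext v
    rw [Representation.mem_invariants, Representation.mem_invariants]
    constructor
    · intro h γ
      obtain ⟨g, rfl⟩ := piL_surjective L γ
      exact h g
    · intro h g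
      exact h (piL L g)
  rw [this]

/-- **(PROJ ≥)**.  `ρ := σ ∘ π`, `Q := σ^*(χ)` (projective: `IsProj.dualTwist`), `ρ' = Q ∘ π` (`dualTwist_comp_piL`).
* `finrank_H2 w` : `h^2(ρ) + h^0(ρ') = sha^1(ρ') + ∑_v h^0_v(ρ')`;
* `finrank_H1_le` : `h^1(ρ) ≤ ⟨Q, E/p⟩`;
* `units_formula (homFun Q _)` : `⟨Q,E/p⟩ + ⟨Q,1⟩ = ⟨Q,𝔽_p[S_L]⟩ + ⟨Q,𝔽_p[∞]⟩ + ⟨Q,χ⟩`;
* `homDim_places`, `homDim_infinite`, `homDim_one` (`= h^0(ρ')`: invariants of `Q` and of `Q ∘ π` agree), `homDim_dualTwist_chiRep` (`= h^0(ρ)`),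
  `finrank_invariants_dualTwist_invol` (`dim Q^c + dim V^c = dim V`; `cycloChar_complexConjugation`).  Then `omega`. -/
theorem ecFun_nonneg (hp2 : p ≠ 2) (hpS : pPrime p ∈ S) (hL : L.IsUnramifiedOutside S)
    (hmu : ∀ s ∈ L.fixingSubgroup, cycloChar p s = 1) (hgen : GenCl (SPl S L)) (V : Type)
    [AddCommGroup V] [Module (ZMod p) V] [Module.Finite (ZMod p) V]
    (σ : Representation (ZMod p) (↥L ≃ₐ[ℚ] ↥L) V) (hσ : IsProj σ) :
    0 ≤ (ecFun L hp2 hpS hL).ev σ := by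
  obtain ⟨lam, Φ, w⟩ := exists_wctx_DS hp2 S hpS
  obtain ⟨ζ, hζ⟩ := TG6.exists_zeta (p := p) L hmu
  have hQ : IsProj (σ.dual.twist (chiL L hmu)) := IsProj.dualTwist hσ _
  have h2 : (2 : ZMod p) ≠ 0 := by
    intro h0
    have h' : ((2 : ℕ) : ZMod p) = 0 := by exact_mod_cast h0
    rw [ZMod.natCast_eq_zero_iff] at h'
    exact hp2 ((Nat.prime_dvd_prime_iff_eq Fact.out Nat.prime_two).mp h')
  have e1 := finrank_H2 w (isSmooth_comp_piL L hL σ)
  rw [dualTwist_comp_piL L hmu σ, finrank_invariants_comp_piL] at e1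
  have e2 := finrank_H1_le L hpS hL hmu hgen hσ
  have e3 := units_formula (homFun _ hQ) hζ (chiL L hmu) (chiL_spec L hmu hζ) (SPl S L)
    (sigmaPl_mem_SPl L)
  simp only [homFun_ev] at e3
  rw [homDim_places L hQ, homDim_infinite L hQ, homDim_one hQ, homDim_dualTwist_chiRep] at e3
  have hc : chiL L hmu (piL L complexConjugation) = -1 := by
    rw [chiL_piL]
    apply Units.ext
    rw [Units.val_neg, Units.val_one]
    exact Fermat.Agent.GAL.PC.cycloChar_complexConjugation p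
  have e4 := finrank_invariants_dualTwist_invol h2 σ (chiL L hmu) (piL L complexConjugation)
    (by rw [← map_mul, complexConjugation_mul_self, map_one]) hc
  rw [ecFun_ev]
  unfold Datum.eulerChar
  rw [finrank_invariants_comp_piL]
  have e2' : finrank (ZMod p) (H1 (DS S).lev (resRep (piL L) σ)) ≤
      homDim (σ.dual.twist (chiL L hmu)) (suRep p (SPl S L) (sigmaPl_mem_SPl L)) := e2
  omega

/-! ### EC-N4 : the free module -/

/-- `k[Γ] ∘ π ≅ k[GQ/Gal(Qb/L)]` -/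
theorem isoRep_reg_permRep :
    IsoRep (resRep (piL L) (regRep (ZMod p) (↥L ≃ₐ[ℚ] ↥L))) (permRep (ZMod p) L.fixingSubgroup) :=
  NumReg.isoRep_reg_permRep_aux L

/-- `2 χ(G_S, 𝔽_p[Gal(L/ℚ)]) = -[L:ℚ]` if `μ_p ⊆ L` and the places over `S` generate the class group.
Copy of `two_mul_eulerChar_nice` (`CFT/W/EulerNice.lean`) WITHOUT niceness.  `P = permRep U`, `U = L.fixingSubgroup`:
* `h^0(P) = 1` (`finrank_invariants_permRep`);
* `finrank_H2 w` + `isoRep_mapRep_dualTwist` (`P' ≅ piRep 1 P`): `h^2(P) + 1 = sha^1(P') + ∑_v h^0_v(P)`, `∑_v h^0_v(P) = #S_L`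
  (`finrank_invariants_loc_permRep`, `card_sigma_O_eq`);
* `sha^1(P') = sha^2(P)` (`finrank_Sha1_dualTwist`) `= sha^2(DF) ≤ clRank = 0` (`Sha2_restr`, `IsoAux.Sha2_iso`, `nonempty_iso_restr_DF`, `locTriv_all`,
  `sha2_le_proof (hasseS hp2 _)`, `clRank_eq_zero`);
* `h^1(P) = h^1(G_L,𝔽_p)` (`H1_restr`, `IsoAux.H1_iso`) `= dim B_S = rank + 1 + #S_L` (`finrank_H1_eq`, `finrank_BS`), `2 (rank + 1) = [L:ℚ]`
  (`two_mul_rank_add_one`), `index_eq_finrank`. -/
theorem two_mul_eulerChar_genCl (hp2 : p ≠ 2) (hpS : pPrime p ∈ S) (hL : L.IsUnramifiedOutside S)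
    (hmu : ∀ s ∈ L.fixingSubgroup, cycloChar p s = 1) (hgen : GenCl (SPl S L)) :
    2 * (DS S).eulerChar (permRep (ZMod p) L.fixingSubgroup) = -(L.fixingSubgroup.index : ℤ) :=
  Reg.two_mul_eulerChar_genCl' L hp2 hpS hL hmu hgen

/-- `dim k[Γ]^c = #Γ / 2` (`π c ≠ 1` as `χ(c) = -1 ≠ 1`; functions invariant under a fixed point free involution). -/
theorem two_mul_finrank_reg_invol (hp2 : p ≠ 2)
    (hmu : ∀ s ∈ L.fixingSubgroup, cycloChar p s = 1) :
    2 * finrank (ZMod p) ↥(LinearMap.ker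
      (regRep (ZMod p) (↥L ≃ₐ[ℚ] ↥L) (piL L complexConjugation) - 1)) =
      Nat.card (↥L ≃ₐ[ℚ] ↥L) :=
  NumReg.two_mul_finrank_reg_invol_aux L hp2 hmu

/-- **(FREE)** -/
theorem ecFun_reg (hp2 : p ≠ 2) (hpS : pPrime p ∈ S) (hL : L.IsUnramifiedOutside S)
    (hmu : ∀ s ∈ L.fixingSubgroup, cycloChar p s = 1) (hgen : GenCl (SPl S L)) :
    (ecFun L hp2 hpS hL).ev (regRep (ZMod p) (↥L ≃ₐ[ℚ] ↥L)) = 0 :=
  NumReg.ecFun_reg_aux L hp2 hpS hL hmu hgen

end Fermat.Agent.S56.EC
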